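import Mathlib
import Fermat.Agent.H72.FDT.Interfaces

set_option autoImplicit false
open scoped NumberField Pointwise
open IsDedekindDomain

namespace Fermat.Agent.H93

variable (L : Type) [Field L] [NumberField L] [IsGalois ℚ L] (H : Subgroup (L ≃ₐ[ℚ] L))

theorem fdt_isGalFixed : IsGaloisGroup H (IntermediateField.fixedField H) L :=
  IsGaloisGroup.of_fixedPoints_eq (L ≃ₐ[ℚ] L) ℚ L H _ rfl

theorem fdt_isGalFixedInt : IsGaloisGroup H (𝓞 (IntermediateField.fixedField H)) (𝓞 L) := by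
  have := fdt_isGalFixed L H
  exact IsGaloisGroup.of_isFractionRing H (𝓞 (IntermediateField.fixedField H)) (𝓞 L)
    (IntermediateField.fixedField H) L

variable {L}

theorem fdt_span_isPrime {ℓ : ℕ} (hℓ : ℓ.Prime) : (Ideal.span {(ℓ : ℤ)}).IsPrime :=
  (Ideal.span_singleton_prime (by exact_mod_cast hℓ.ne_zero)).mpr (Nat.prime_iff_prime_int.mp hℓ)

omit [NumberField L] [IsGalois ℚ L] in
/-- A prime of `𝓞 L` containing the rational prime `ℓ` lies over `(ℓ)`. -/
theorem fdt_liesOver_span {ℓ : ℕ} (hℓ : ℓ.Prime) (P : Ideal (𝓞 L)) [P.IsPrime]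
    (hP : (ℓ : 𝓞 L) ∈ P) : P.LiesOver (Ideal.span {(ℓ : ℤ)}) := by
  constructor
  have hmax : (Ideal.span {(ℓ : ℤ)}).IsMaximal :=
    Ideal.IsPrime.isMaximal (fdt_span_isPrime hℓ) (by simpa using hℓ.ne_zero)
  have hle : Ideal.span {(ℓ : ℤ)} ≤ P.under ℤ := by
    rw [Ideal.span_singleton_le_iff_mem, Ideal.under_def, Ideal.mem_comap]
    simpa using hP
  have hne : P.under ℤ ≠ ⊤ := Ideal.IsPrime.ne_top inferInstance
  exact hmax.eq_of_le hne hle

theorem fdt_card_stabilizer {ℓ : ℕ} (hℓ : ℓ.Prime) (P : Ideal (𝓞 L)) [P.IsPrime]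
    (hP : (ℓ : 𝓞 L) ∈ P) [hU : Algebra.IsUnramifiedAt ℤ P] : 
    Nat.card (MulAction.stabilizer (L ≃ₐ[ℚ] L) P) = P.inertiaDeg ℤ := by
  have hlo := fdt_liesOver_span hℓ P hP
  have hp : (Ideal.span {(ℓ : ℤ)}).IsPrime := fdt_span_isPrime hℓ
  have h1 := Ideal.card_stabilizer_eq (G := (L ≃ₐ[ℚ] L)) (Ideal.span {(ℓ : ℤ)}) P
  rw [Ideal.ramificationIdxIn_eq_ramificationIdx _ P (L ≃ₐ[ℚ] L),
    Ideal.inertiaDegIn_eq_inertiaDeg _ P (L ≃ₐ[ℚ] L)] at h1
  rw [h1, Ideal.ramificationIdx_eq_one_of_isUnramifiedAt, one_mul]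

theorem fdt_card_stabilizer_sub (P : Ideal (𝓞 L)) [P.IsPrime]
    [hU : Algebra.IsUnramifiedAt ℤ P] : 
    Nat.card ((MulAction.stabilizer (L ≃ₐ[ℚ] L) P).subgroupOf H) =
      P.inertiaDeg (𝓞 (IntermediateField.fixedField H)) := by
  have := fdt_isGalFixedInt L H
  have h1 := Ideal.card_stabilizer_eq (G := H) (P.under (𝓞 (IntermediateField.fixedField H))) P
  rw [Ideal.ramificationIdxIn_eq_ramificationIdx _ P H,
    Ideal.inertiaDegIn_eq_inertiaDeg _ P H] at h1
  have h2 : P.ramificationIdx ℤ = 1 := Ideal.ramificationIdx_eq_one_of_isUnramifiedAt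
  have h3 := Ideal.ramificationIdx_tower (R := ℤ) (P.under (𝓞 (IntermediateField.fixedField H))) P
  rw [h2] at h3
  have h4 : P.ramificationIdx (𝓞 (IntermediateField.fixedField H)) = 1 :=
    Nat.eq_one_of_mul_eq_one_left h3.symm
  rw [h4, one_mul] at h1
  rw [← h1]
  refine Nat.card_congr (Equiv.subtypeEquivRight fun h => ?_)
  simp only [Subgroup.mem_subgroupOf, MulAction.mem_stabilizer_iff]
  rfl

omit [NumberField L] [IsGalois ℚ L] in
/-- group theory: `K ≤ H` iff `K.subgroupOf H` has the same cardinality as `K` (finite). -/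
theorem fdt_le_iff_card_subgroupOf {G : Type*} [Group G] [Finite G] (K H : Subgroup G) :
    K ≤ H ↔ Nat.card (K.subgroupOf H) = Nat.card K := by
  have e : Nat.card (K.subgroupOf H) = Nat.card (K ⊓ H : Subgroup G) := by
    rw [← Subgroup.inf_subgroupOf_right K H]
    exact Nat.card_congr (Subgroup.subgroupOfEquivOfLe (inf_le_right : K ⊓ H ≤ H)).toEquiv
  rw [e]
  constructor
  · intro h
    rw [inf_of_le_left h]
  · intro h
    have := Subgroup.eq_of_le_of_card_ge (inf_le_left : K ⊓ H ≤ K) h.ge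
    exact inf_eq_left.mp this

theorem fdt_absNorm_under {ℓ : ℕ} (hℓ : ℓ.Prime) (P : Ideal (𝓞 L)) [P.IsPrime]
    (hP : (ℓ : 𝓞 L) ∈ P) :
    Ideal.absNorm (P.under (𝓞 (IntermediateField.fixedField H))) =
      ℓ ^ (P.under (𝓞 (IntermediateField.fixedField H))).inertiaDeg ℤ := by
  have hlo := fdt_liesOver_span hℓ P hP
  have hp : (Ideal.span {(ℓ : ℤ)}).IsPrime := fdt_span_isPrime hℓ
  have hmax : (Ideal.span {(ℓ : ℤ)}).IsMaximal :=
    Ideal.IsPrime.isMaximal (fdt_span_isPrime hℓ) (by simpa using hℓ.ne_zero)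
  have hlo2 : (P.under (𝓞 (IntermediateField.fixedField H))).LiesOver (Ideal.span {(ℓ : ℤ)}) :=
    Ideal.LiesOver.tower_bot P _ _
  rw [Ideal.absNorm_eq_pow_inertiaDeg' _ hℓ]
  congr 1
  have hne : P.under (𝓞 (IntermediateField.fixedField H)) ≠ ⊥ :=
    Ideal.ne_bot_of_liesOver_of_ne_bot (p := Ideal.span {(ℓ : ℤ)})
      (by simpa using hℓ.ne_zero) _
  have : (P.under (𝓞 (IntermediateField.fixedField H))).IsMaximal :=
    Ideal.IsPrime.isMaximal inferInstance hne
  exact Ideal.inertiaDeg'_eq_inertiaDeg _ _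

/-- **Key equivalence.** -/
theorem fdt_stabilizer_le_iff {ℓ : ℕ} (hℓ : ℓ.Prime) (P : Ideal (𝓞 L)) [P.IsPrime]
    (hP : (ℓ : 𝓞 L) ∈ P) [hU : Algebra.IsUnramifiedAt ℤ P] :
    MulAction.stabilizer (L ≃ₐ[ℚ] L) P ≤ H ↔
      Ideal.absNorm (P.under (𝓞 (IntermediateField.fixedField H))) = ℓ := by
  rw [fdt_le_iff_card_subgroupOf, fdt_card_stabilizer_sub H P, fdt_card_stabilizer hℓ P hP,
    fdt_absNorm_under H hℓ P hP]
  have ht := Ideal.inertiaDeg_tower (R := ℤ) (P.under (𝓞 (IntermediateField.fixedField H))) P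
  have hlo := fdt_liesOver_span hℓ P hP
  have hpos : 0 < P.inertiaDeg (𝓞 (IntermediateField.fixedField H)) := Ideal.inertiaDeg_pos _ _
  constructor
  · intro h
    rw [← h] at ht
    have : (P.under (𝓞 (IntermediateField.fixedField H))).inertiaDeg ℤ = 1 := by
      have h' : 1 * P.inertiaDeg (𝓞 (IntermediateField.fixedField H)) = 
        (P.under (𝓞 (IntermediateField.fixedField H))).inertiaDeg ℤ * P.inertiaDeg (𝓞 (IntermediateField.fixedField H)) := by
        rw [one_mul]; exact ht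
      exact (Nat.eq_of_mul_eq_mul_right hpos h').symm
    rw [this, pow_one]
  · intro h
    have h1 : (P.under (𝓞 (IntermediateField.fixedField H))).inertiaDeg ℤ = 1 := by
      have := Nat.pow_right_injective hℓ.two_le (h.trans (pow_one ℓ).symm)
      exact this
    rw [ht, h1, one_mul]

end Fermat.Agent.H93
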