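import Mathlib
import Fermat.Agent.H93.FDT.LocalCountBase

set_option autoImplicit false
open scoped NumberField Pointwise
open IsDedekindDomain

namespace Fermat.Agent.H93

variable {L : Type} [Field L] [NumberField L] [IsGalois ℚ L] (H : Subgroup (L ≃ₐ[ℚ] L))

/-- orbit–stabiliser for the action of `H` on the primes over a prime of the fixed field. -/
theorem fdt_card_mul_ncard (P : Ideal (𝓞 L)) [P.IsPrime]
    (hP : MulAction.stabilizer (L ≃ₐ[ℚ] L) P ≤ H) :
    Nat.card (MulAction.stabilizer (L ≃ₐ[ℚ] L) P) *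
      (Ideal.primesOver (P.under (𝓞 (IntermediateField.fixedField H))) (𝓞 L)).ncard =
      Nat.card H := by
  have hG := fdt_isGalFixedInt L H
  have hinv : Algebra.IsInvariant (𝓞 (IntermediateField.fixedField H)) (𝓞 L) H :=
    IsGaloisGroup.isInvariant
  have horb := Algebra.IsInvariant.orbit_eq_primesOver (𝓞 (IntermediateField.fixedField H))
    (𝓞 L) H (P.under (𝓞 (IntermediateField.fixedField H))) P
  have hidx := MulAction.index_stabilizer H P
  have hcm := Subgroup.card_mul_index (MulAction.stabilizer H P)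
  have hc1 : Nat.card (MulAction.stabilizer H P) =
      Nat.card ((MulAction.stabilizer (L ≃ₐ[ℚ] L) P).subgroupOf H) := by
    refine Nat.card_congr (Equiv.subtypeEquivRight fun h => ?_)
    simp only [Subgroup.mem_subgroupOf, MulAction.mem_stabilizer_iff]
    rfl
  have hc2 := (fdt_le_iff_card_subgroupOf (MulAction.stabilizer (L ≃ₐ[ℚ] L) P) H).mp hP
  rw [← horb, ← hc2, ← hc1, ← hcm]
  congr 1
  exact hidx.symm


omit [IsGalois ℚ L] in
/-- a prime of `𝓞 L` over a height-one prime `u` of the fixed field of absolute norm `ℓ`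
contains `ℓ`. -/
theorem fdt_mem_of_primesOver {ℓ : ℕ}
    (u : HeightOneSpectrum (𝓞 (IntermediateField.fixedField H)))
    (hu : Ideal.absNorm u.asIdeal = ℓ) (P : Ideal (𝓞 L))
    (hPu : P ∈ Ideal.primesOver u.asIdeal (𝓞 L)) : (ℓ : 𝓞 L) ∈ P := by
  have h1 : ((Ideal.absNorm u.asIdeal : ℕ) : 𝓞 (IntermediateField.fixedField H)) ∈ u.asIdeal :=
    Ideal.absNorm_mem u.asIdeal
  rw [hu] at h1
  have h2 : u.asIdeal = P.under (𝓞 (IntermediateField.fixedField H)) := hPu.2.over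
  rw [h2, Ideal.under_def, Ideal.mem_comap] at h1
  simpa using h1

theorem fdt_sum_primesOver {ℓ : ℕ} (hℓ : ℓ.Prime)
    (hU : ∀ (P : Ideal (𝓞 L)) [P.IsPrime], (ℓ : 𝓞 L) ∈ P → Algebra.IsUnramifiedAt ℤ P)
    (u : HeightOneSpectrum (𝓞 (IntermediateField.fixedField H)))
    (hu : Ideal.absNorm u.asIdeal = ℓ) :
    ∑ᶠ P ∈ Ideal.primesOver u.asIdeal (𝓞 L),
      Nat.card (MulAction.stabilizer (L ≃ₐ[ℚ] L) P) = Nat.card H := by
  have hup : u.asIdeal.IsPrime := u.isPrime
  have hfin : (Ideal.primesOver u.asIdeal (𝓞 L)).Finite := IsDedekindDomain.primesOver_finite u.asIdeal (𝓞 L)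
  have hne : (Ideal.primesOver u.asIdeal (𝓞 L)).ncard ≠ 0 :=
    IsDedekindDomain.primesOver_ncard_ne_zero u.asIdeal (𝓞 L)
  have hconst : ∀ P ∈ Ideal.primesOver u.asIdeal (𝓞 L),
      Nat.card (MulAction.stabilizer (L ≃ₐ[ℚ] L) P) =
        Nat.card H / (Ideal.primesOver u.asIdeal (𝓞 L)).ncard := by
    intro P hPu
    have hPp : P.IsPrime := hPu.1
    have hmem := fdt_mem_of_primesOver H u hu P hPu
    have hunr := hU P hmem
    have h2 : u.asIdeal = P.under (𝓞 (IntermediateField.fixedField H)) := hPu.2.over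
    have hle : MulAction.stabilizer (L ≃ₐ[ℚ] L) P ≤ H :=
      (fdt_stabilizer_le_iff H hℓ P hmem).mpr (by rw [← h2]; exact hu)
    have h3 := fdt_card_mul_ncard H P hle
    rw [← h2] at h3
    rw [← h3, Nat.mul_div_cancel _ (Nat.pos_of_ne_zero hne)]
  have hdvd : (Ideal.primesOver u.asIdeal (𝓞 L)).ncard ∣ Nat.card H := by
    obtain ⟨P, hPu⟩ := Set.nonempty_of_ncard_ne_zero hne
    have hPp : P.IsPrime := hPu.1
    have hmem := fdt_mem_of_primesOver H u hu P hPu
    have hunr := hU P hmem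
    have h2 : u.asIdeal = P.under (𝓞 (IntermediateField.fixedField H)) := hPu.2.over
    have hle : MulAction.stabilizer (L ≃ₐ[ℚ] L) P ≤ H :=
      (fdt_stabilizer_le_iff H hℓ P hmem).mpr (by rw [← h2]; exact hu)
    have h3 := fdt_card_mul_ncard H P hle
    rw [← h2] at h3
    exact Dvd.intro_left _ h3
  rw [finsum_mem_congr rfl hconst, finsum_mem_eq_finite_toFinset_sum _ hfin, Finset.sum_const,
    smul_eq_mul, ← Set.ncard_eq_toFinset_card _ hfin, Nat.mul_div_cancel' hdvd]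

theorem fdt_setOf_eq_biUnion {ℓ : ℕ} (hℓ : ℓ.Prime)
    (hU : ∀ (P : Ideal (𝓞 L)) [P.IsPrime], (ℓ : 𝓞 L) ∈ P → Algebra.IsUnramifiedAt ℤ P) :
    {P : Ideal (𝓞 L) | P.IsPrime ∧ (ℓ : 𝓞 L) ∈ P ∧ MulAction.stabilizer (L ≃ₐ[ℚ] L) P ≤ H} =
      ⋃ u ∈ {u : HeightOneSpectrum (𝓞 (IntermediateField.fixedField H)) |
          Ideal.absNorm u.asIdeal = ℓ}, Ideal.primesOver u.asIdeal (𝓞 L) := by
  ext P
  simp only [Set.mem_ofPred_eq, Set.mem_iUnion, exists_prop]
  constructor
  · rintro ⟨hPp, hmem, hle⟩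
    have hunr := hU P hmem
    have hlo := fdt_liesOver_span hℓ P hmem
    have hne : P.under (𝓞 (IntermediateField.fixedField H)) ≠ ⊥ := by
      have hlo2 : (P.under (𝓞 (IntermediateField.fixedField H))).LiesOver (Ideal.span {(ℓ : ℤ)}) :=
        Ideal.LiesOver.tower_bot P _ _
      exact Ideal.ne_bot_of_liesOver_of_ne_bot (p := Ideal.span {(ℓ : ℤ)})
        (by simpa using hℓ.ne_zero) _
    refine ⟨⟨P.under (𝓞 (IntermediateField.fixedField H)), inferInstance, hne⟩, ?_, ?_⟩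
    · exact (fdt_stabilizer_le_iff H hℓ P hmem).mp hle
    · exact ⟨hPp, ⟨rfl⟩⟩
  · rintro ⟨u, hu, hPu⟩
    have hPp : P.IsPrime := hPu.1
    have hmem := fdt_mem_of_primesOver H u hu P hPu
    have hunr := hU P hmem
    have h2 : u.asIdeal = P.under (𝓞 (IntermediateField.fixedField H)) := hPu.2.over
    exact ⟨hPp, hmem, (fdt_stabilizer_le_iff H hℓ P hmem).mpr (by rw [← h2]; exact hu)⟩

omit [IsGalois ℚ L] in
theorem fdt_finite_degOne {ℓ : ℕ} (hℓ : ℓ.Prime) :
    {u : HeightOneSpectrum (𝓞 (IntermediateField.fixedField H)) |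
          Ideal.absNorm u.asIdeal = ℓ}.Finite := by
  have hp : (Ideal.span {(ℓ : ℤ)}).IsPrime := fdt_span_isPrime hℓ
  have hmax : (Ideal.span {(ℓ : ℤ)}).IsMaximal :=
    Ideal.IsPrime.isMaximal (fdt_span_isPrime hℓ) (by simpa using hℓ.ne_zero)
  have hfin := IsDedekindDomain.primesOver_finite (Ideal.span {(ℓ : ℤ)})
    (𝓞 (IntermediateField.fixedField H))
  refine Set.Finite.subset (hfin.preimage
    (f := fun u : HeightOneSpectrum (𝓞 (IntermediateField.fixedField H)) => u.asIdeal)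
    (fun a _ b _ hab => HeightOneSpectrum.ext hab)) ?_
  intro u hu
  simp only [Set.mem_ofPred_eq] at hu
  simp only [Set.mem_preimage]
  have h1 : ((Ideal.absNorm u.asIdeal : ℕ) : 𝓞 (IntermediateField.fixedField H)) ∈ u.asIdeal :=
    Ideal.absNorm_mem u.asIdeal
  rw [hu] at h1
  have hup : u.asIdeal.IsPrime := u.isPrime
  refine ⟨hup, ⟨?_⟩⟩
  have hle : Ideal.span {(ℓ : ℤ)} ≤ u.asIdeal.under ℤ := by
    rw [Ideal.span_singleton_le_iff_mem, Ideal.under_def, Ideal.mem_comap]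
    simpa using h1
  have hne : u.asIdeal.under ℤ ≠ ⊤ := Ideal.IsPrime.ne_top inferInstance
  exact hmax.eq_of_le hne hle

/-- **FDT-B.** -/
theorem fdt_localCountStatement : Fermat.Agent.H72.LocalCountStatement := by
  intro L _ _ _ H ℓ hℓ hU
  unfold Fermat.Agent.H72.decCount
  have hI := fdt_finite_degOne H hℓ
  have hdisj : ({u : HeightOneSpectrum (𝓞 (IntermediateField.fixedField H)) |
          Ideal.absNorm u.asIdeal = ℓ}).PairwiseDisjoint
      (fun u => Ideal.primesOver u.asIdeal (𝓞 L)) := by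
    intro u _ v _ huv
    rw [Function.onFun, Set.disjoint_left]
    intro P hPu hPv
    apply huv
    have h2 : u.asIdeal = P.under (𝓞 (IntermediateField.fixedField H)) := hPu.2.over
    have h3 : v.asIdeal = P.under (𝓞 (IntermediateField.fixedField H)) := hPv.2.over
    exact HeightOneSpectrum.ext (h2.trans h3.symm)
  have hfinu : ∀ u ∈ {u : HeightOneSpectrum (𝓞 (IntermediateField.fixedField H)) |
          Ideal.absNorm u.asIdeal = ℓ}, (Ideal.primesOver u.asIdeal (𝓞 L)).Finite := by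
    intro u _
    have hup : u.asIdeal.IsPrime := u.isPrime
    exact IsDedekindDomain.primesOver_finite u.asIdeal (𝓞 L)
  have h1 := finsum_set_coe_eq_finsum_mem (f := fun P : Ideal (𝓞 L) =>
      Nat.card (MulAction.stabilizer (L ≃ₐ[ℚ] L) P))
    {P : Ideal (𝓞 L) | P.IsPrime ∧ (ℓ : 𝓞 L) ∈ P ∧ MulAction.stabilizer (L ≃ₐ[ℚ] L) P ≤ H}
  refine h1.trans ?_
  rw [fdt_setOf_eq_biUnion H hℓ hU, finsum_mem_biUnion hdisj hI hfinu]
  have h2 : (∑ᶠ u ∈ {u : HeightOneSpectrum (𝓞 (IntermediateField.fixedField H)) |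
          Ideal.absNorm u.asIdeal = ℓ}, ∑ᶠ P ∈ Ideal.primesOver u.asIdeal (𝓞 L),
        Nat.card (MulAction.stabilizer (L ≃ₐ[ℚ] L) P)) =
      ∑ᶠ u ∈ {u : HeightOneSpectrum (𝓞 (IntermediateField.fixedField H)) |
          Ideal.absNorm u.asIdeal = ℓ}, Nat.card H :=
    finsum_mem_congr rfl (fun u hu => fdt_sum_primesOver H hℓ hU u hu)
  refine h2.trans ?_
  rw [finsum_mem_eq_finite_toFinset_sum _ hI, Finset.sum_const, smul_eq_mul,
    ← Set.ncard_eq_toFinset_card _ hI, mul_comm]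
  rfl

end Fermat.Agent.H93
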